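import Mathlib

/-!
# Orbit sums on a finite `G`-set (linear algebra of permutation modules of cyclic groups)

For a group `G` acting on a finite type `X`, `g : G` and a field `K` we study
* `osum K g : (X → K) →ₗ[K] (Orb g X → K)`, the sum over the orbits of `⟨g⟩`,
* `cobd K g : (X → K) →ₗ[K] (X → K)`, `h ↦ (x ↦ h (g • x) - h x)`,
and prove `ker (osum K g) = range (cobd K g)` by a dimension count.
-/

set_option autoImplicit false

namespace Fermat.Agent.S21.H585

section

variable {G : Type*} [Group G] {X : Type*} [MulAction G X]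

/-- The orbit space of the cyclic group `⟨g⟩` acting on `X`. -/
abbrev Orb (g : G) (X : Type*) [MulAction G X] : Type _ :=
  MulAction.orbitRel.Quotient (Subgroup.zpowers g) X

/-- The quotient map to the orbit space. -/
def orbMk (g : G) (x : X) : Orb g X := Quotient.mk'' x

lemma orbMk_surjective (g : G) : Function.Surjective (orbMk (X := X) g) :=
  Quotient.mk''_surjective

lemma orbMk_eq_iff (g : G) (x y : X) :
    orbMk g x = orbMk g y ↔ ∃ k : ℤ, g ^ k • y = x := by
  rw [orbMk, orbMk, Quotient.eq'', MulAction.orbitRel_apply, MulAction.mem_orbit_iff]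
  constructor
  · rintro ⟨⟨h, hh⟩, rfl⟩
    obtain ⟨k, rfl⟩ := Subgroup.mem_zpowers_iff.mp hh
    exact ⟨k, rfl⟩
  · rintro ⟨k, rfl⟩
    exact ⟨⟨g ^ k, Subgroup.zpow_mem_zpowers g k⟩, rfl⟩

lemma orbMk_smul (g : G) (x : X) : orbMk g (g • x) = orbMk g x :=
  (orbMk_eq_iff g _ _).mpr ⟨1, by rw [zpow_one]⟩

lemma orbMk_inv_smul (g : G) (x : X) : orbMk g (g⁻¹ • x) = orbMk g x :=
  (orbMk_eq_iff g _ _).mpr ⟨-1, by rw [zpow_neg_one]⟩


variable (K : Type*) [Field K]

/-- `h ↦ h ∘ g - h`. -/
def cobd (g : G) : (X → K) →ₗ[K] (X → K) where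
  toFun h x := h (g • x) - h x
  map_add' h h' := by funext x; simp only [Pi.add_apply]; ring
  map_smul' t h := by funext x; simp only [Pi.smul_apply, smul_eq_mul, RingHom.id_apply]; ring

@[simp] lemma cobd_apply (g : G) (h : X → K) (x : X) : cobd K g h x = h (g • x) - h x := rfl

variable [Fintype X]

open Classical in
/-- Sum over the orbits of `⟨g⟩`. -/
noncomputable def osum (g : G) : (X → K) →ₗ[K] (Orb g X → K) where
  toFun m ω := ∑ x : X, if orbMk g x = ω then m x else 0
  map_add' m m' := by
    funext ω
    simp only [Pi.add_apply, ← Finset.sum_add_distrib]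
    refine Finset.sum_congr rfl fun x _ => ?_
    split_ifs <;> simp
  map_smul' t m := by
    funext ω
    simp only [Pi.smul_apply, smul_eq_mul, RingHom.id_apply, Finset.mul_sum]
    refine Finset.sum_congr rfl fun x _ => ?_
    split_ifs <;> simp

open Classical in
lemma osum_apply (g : G) (m : X → K) (ω : Orb g X) :
    osum K g m ω = ∑ x : X, if orbMk g x = ω then m x else 0 := rfl

/-- Orbit sums are invariant under translation by `g`. -/
lemma osum_comp_smul (g : G) (m : X → K) : osum K g (fun x => m (g • x)) = osum K g m := by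
  classical
  funext ω
  rw [osum_apply, osum_apply]
  refine Fintype.sum_equiv (MulAction.toPerm g) _ _ fun x => ?_
  simp only [MulAction.toPerm_apply, orbMk_smul]

lemma osum_cobd (g : G) (h : X → K) : osum K g (cobd K g h) = 0 := by
  have : cobd K g h = (fun x => h (g • x)) - h := rfl
  rw [this, map_sub, osum_comp_smul, sub_self]

lemma range_cobd_le_ker_osum (g : G) :
    LinearMap.range (cobd K g : (X → K) →ₗ[K] (X → K)) ≤ LinearMap.ker (osum K g) := by
  rintro _ ⟨h, rfl⟩
  exact osum_cobd K g h

/-- The total sum of the orbit sums is the total sum. -/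
lemma sum_osum (g : G) [Fintype (Orb g X)] (m : X → K) : ∑ ω, osum K g m ω = ∑ x, m x := by
  classical
  simp only [osum_apply]
  rw [Finset.sum_comm]
  refine Finset.sum_congr rfl fun x _ => ?_
  rw [Finset.sum_ite_eq]
  simp

lemma osum_surjective (g : G) : Function.Surjective (osum K g : (X → K) → (Orb g X → K)) := by
  classical
  intro z
  refine ⟨fun x => if x = Quotient.out (orbMk g x) then z (orbMk g x) else 0, ?_⟩
  funext ω
  rw [osum_apply]
  have hω : orbMk g (Quotient.out ω) = ω := Quotient.out_eq' ω
  rw [Finset.sum_eq_single (Quotient.out ω)]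
  · rw [if_pos hω, hω, if_pos rfl]
  · intro x _ hx
    by_cases h1 : orbMk g x = ω
    · rw [if_pos h1, if_neg]
      rw [h1]; exact hx
    · rw [if_neg h1]
  · intro h; exact absurd (Finset.mem_univ _) h


/-- Pull-back of functions from the orbit space. -/
def orbPb (g : G) : (Orb g X → K) →ₗ[K] (X → K) where
  toFun z x := z (orbMk g x)
  map_add' _ _ := rfl
  map_smul' _ _ := rfl

omit [Fintype X] in
lemma orbPb_injective (g : G) :
    Function.Injective (orbPb K g : (Orb g X → K) → (X → K)) := by
  intro z z' h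
  funext ω
  obtain ⟨x, rfl⟩ := orbMk_surjective g ω
  exact congrFun h x

omit [Fintype X] in
lemma eq_of_cobd_eq_zero (g : G) {h : X → K} (hh : cobd K g h = 0) (k : ℤ) (x : X) :
    h (g ^ k • x) = h x := by
  have h1 : ∀ y, h (g • y) = h y := fun y => by
    have := congrFun hh y
    simpa [sub_eq_zero] using this
  induction k using Int.induction_on generalizing x with
  | zero => simp
  | succ n ih =>
    rw [zpow_add_one, mul_smul, ih, h1]
  | pred n ih =>
    rw [zpow_sub_one, mul_smul, ih]
    have := h1 (g⁻¹ • x)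
    rw [smul_inv_smul] at this
    exact this.symm

omit [Fintype X] in
lemma ker_cobd_eq_range_orbPb (g : G) :
    LinearMap.ker (cobd K g : (X → K) →ₗ[K] (X → K)) = LinearMap.range (orbPb K g) := by
  apply le_antisymm
  · intro h hh
    rw [LinearMap.mem_ker] at hh
    refine ⟨fun ω => h (Quotient.out ω), ?_⟩
    funext x
    show h (Quotient.out (orbMk g x)) = h x
    have h1 : orbMk g (Quotient.out (orbMk g x)) = orbMk g x := Quotient.out_eq' _
    obtain ⟨k, hk⟩ := (orbMk_eq_iff g _ _).mp h1
    rw [← hk, eq_of_cobd_eq_zero K g hh]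
  · rintro _ ⟨z, rfl⟩
    rw [LinearMap.mem_ker]
    funext x
    show z (orbMk g (g • x)) - z (orbMk g x) = 0
    rw [orbMk_smul, sub_self]

lemma finrank_orb_fun (g : G) : Module.finrank K (Orb g X → K) = Nat.card (Orb g X) := by
  classical
  letI : Fintype (Orb g X) := Fintype.ofFinite _
  rw [Module.finrank_fintype_fun_eq_card, Nat.card_eq_fintype_card]

lemma finrank_ker_cobd (g : G) :
    Module.finrank K (LinearMap.ker (cobd K g : (X → K) →ₗ[K] (X → K))) = Nat.card (Orb g X) := by
  rw [ker_cobd_eq_range_orbPb, LinearMap.finrank_range_of_inj (orbPb_injective K g),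
    finrank_orb_fun]

lemma finrank_range_cobd_add (g : G) :
    Module.finrank K (LinearMap.range (cobd K g : (X → K) →ₗ[K] (X → K))) + Nat.card (Orb g X)
      = Fintype.card X := by
  rw [← finrank_ker_cobd K g, LinearMap.finrank_range_add_finrank_ker,
    Module.finrank_fintype_fun_eq_card]

lemma finrank_ker_osum_add (g : G) :
    Module.finrank K (LinearMap.ker (osum K g : (X → K) →ₗ[K] (Orb g X → K)))
      + Nat.card (Orb g X) = Fintype.card X := by
  have h := LinearMap.finrank_range_add_finrank_ker (osum K g : (X → K) →ₗ[K] (Orb g X → K))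
  rw [LinearMap.range_eq_top.mpr (osum_surjective K g), finrank_top, finrank_orb_fun,
    Module.finrank_fintype_fun_eq_card] at h
  omega

/-- **Coboundary lemma**: a function with vanishing `⟨g⟩`-orbit sums is of the form
`h ∘ g - h`. -/
theorem ker_osum_eq_range_cobd (g : G) :
    LinearMap.ker (osum K g : (X → K) →ₗ[K] (Orb g X → K)) = LinearMap.range (cobd K g) := by
  symm
  apply Submodule.eq_of_le_of_finrank_eq (range_cobd_le_ker_osum K g)
  have h1 := finrank_range_cobd_add K (X := X) g
  have h2 := finrank_ker_osum_add K (X := X) g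
  omega

theorem exists_cobd_of_osum_eq_zero (g : G) {b : X → K} (hb : osum K g b = 0) :
    ∃ h : X → K, ∀ x, b x = h (g • x) - h x := by
  have : b ∈ LinearMap.range (cobd K g : (X → K) →ₗ[K] (X → K)) := by
    rw [← ker_osum_eq_range_cobd]; exact hb
  obtain ⟨h, rfl⟩ := this
  exact ⟨h, fun x => rfl⟩

end

end Fermat.Agent.S21.H585
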