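import Mathlib

/-!
# Parabolic elements of `SL(2, ℤ)` are conjugate to `± T ^ k`
-/

set_option autoImplicit false

namespace Fermat.Agent.S21.H585

open Matrix ModularGroup
open scoped MatrixGroups

/-- A fixed primitive vector of a trace-2 matrix in `SL(2, ℤ)`. -/
lemma exists_fixed_vector (a b c d : ℤ) (hdet : a * d - b * c = 1) (htr : a + d = 2) :
    ∃ p q u v : ℤ, a * p + b * q = p ∧ c * p + d * q = q ∧ u * p + v * q = 1 := by
  have hα : (a - 1) ^ 2 + b * c = 0 := by
    have hd : d = 2 - a := by omega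
    subst hd
    linear_combination -hdet
  by_cases hc : c = 0
  · subst hc
    have ha : a = 1 := by
      have : (a - 1) ^ 2 = 0 := by simpa using hα
      have := pow_eq_zero_iff (n := 2) (by norm_num) |>.mp this
      omega
    have hd : d = 1 := by omega
    subst ha hd
    exact ⟨1, 0, 1, 0, by ring, by ring, by ring⟩
  · have hpos : 0 < Int.gcd c (a - 1) := Int.gcd_pos_of_ne_zero_left _ hc
    set e : ℤ := ((Int.gcd c (a - 1) : ℕ) : ℤ) with he
    have he0 : e ≠ 0 := by
      rw [he]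
      exact_mod_cast hpos.ne'
    have hq : c = e * (c / e) := (Int.mul_ediv_cancel' (Int.gcd_dvd_left _ _)).symm
    have hp : a - 1 = e * ((a - 1) / e) := (Int.mul_ediv_cancel' (Int.gcd_dvd_right _ _)).symm
    have hcop : IsCoprime ((a - 1) / e) (c / e) := by
      rw [Int.isCoprime_iff_gcd_eq_one, Int.gcd_comm]
      exact Int.gcd_div_gcd_div_gcd hpos
    generalize (a - 1) / e = p at hp hcop
    generalize c / e = q at hq hcop
    obtain ⟨u, v, huv⟩ := hcop
    refine ⟨p, q, u, v, ?_, ?_, huv⟩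
    · have h1 : e * ((a - 1) * p + b * q) = 0 := by
        have : e * ((a - 1) * p + b * q) = (a - 1) * (e * p) + b * (e * q) := by ring
        rw [this, ← hp, ← hq]
        linear_combination hα
      have h2 := (mul_eq_zero.mp h1).resolve_left he0
      linear_combination h2
    · have hd : d - 1 = -(a - 1) := by omega
      have h1 : c * p + (d - 1) * q = 0 := by
        rw [hd, hq, hp]; ring
      linear_combination h1


/-- An element of `SL(2, ℤ)` from its entries. -/
def mkSL2 (p r q s : ℤ) (h : p * s - r * q = 1) : SL(2, ℤ) :=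
  ⟨!![p, r; q, s], by rw [Matrix.det_fin_two_of]; exact h⟩

lemma coe_mkSL2 (p r q s : ℤ) (h : p * s - r * q = 1) :
    ((mkSL2 p r q s h : SL(2, ℤ)) : Matrix (Fin 2) (Fin 2) ℤ) = !![p, r; q, s] := rfl

theorem exists_mul_eq_mul_T_zpow (γ : SL(2, ℤ))
    (htr : (γ : Matrix (Fin 2) (Fin 2) ℤ).trace = 2) :
    ∃ (g : SL(2, ℤ)) (k : ℤ), γ * g = g * T ^ k := by
  have hdet : γ.1 0 0 * γ.1 1 1 - γ.1 0 1 * γ.1 1 0 = 1 := by
    have := γ.2
    rwa [Matrix.det_fin_two] at this
  have htr' : γ.1 0 0 + γ.1 1 1 = 2 := by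
    rwa [Matrix.trace_fin_two] at htr
  obtain ⟨p, q, u, v, h1, h2, h4⟩ := exists_fixed_vector _ _ _ _ hdet htr'
  set a := γ.1 0 0 with ha
  set b := γ.1 0 1 with hb
  set c := γ.1 1 0 with hc
  set d := γ.1 1 1 with hd
  refine ⟨mkSL2 p (-v) q u (by linear_combination h4),
    u * (-a * v + b * u) + v * (-c * v + d * u), ?_⟩
  apply Subtype.ext
  rw [Matrix.SpecialLinearGroup.coe_mul, Matrix.SpecialLinearGroup.coe_mul, coe_T_zpow,
    coe_mkSL2]
  have hγ : γ.1 = !![a, b; c, d] := by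
    ext i j; fin_cases i <;> fin_cases j <;> rfl
  rw [hγ]
  ext i j
  fin_cases i <;> fin_cases j <;>
    simp only [Matrix.mul_apply, Fin.sum_univ_two, Matrix.of_apply, Matrix.cons_val',
      Matrix.cons_val_zero, Matrix.cons_val_one, Matrix.cons_val_fin_one, Fin.zero_eta,
      Fin.mk_one, Fin.isValue]
  · linear_combination h1
  · linear_combination (-(-a * v + b * u)) * h4 + v * u * h1 + v * v * h2
      + v * (1 - a - d) * h4 - v * htr'
  · linear_combination h2
  · linear_combination (-(-c * v + d * u)) * h4 - u * u * h1 - u * v * h2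
      - u * (1 - a - d) * h4 + u * htr'

theorem exists_conj_T_zpow (γ : SL(2, ℤ))
    (htr : (γ : Matrix (Fin 2) (Fin 2) ℤ).trace ^ 2 = 4) :
    ∃ (g : SL(2, ℤ)) (k : ℤ), γ = g * T ^ k * g⁻¹ ∨ γ = -(g * T ^ k * g⁻¹) := by
  have h2 : (γ : Matrix (Fin 2) (Fin 2) ℤ).trace = 2 ∨
      (γ : Matrix (Fin 2) (Fin 2) ℤ).trace = -2 := by
    have : ((γ : Matrix (Fin 2) (Fin 2) ℤ).trace - 2) *
        ((γ : Matrix (Fin 2) (Fin 2) ℤ).trace + 2) = 0 := by linear_combination htr
    rcases mul_eq_zero.mp this with h | h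
    · left; omega
    · right; omega
  rcases h2 with h | h
  · obtain ⟨g, k, hg⟩ := exists_mul_eq_mul_T_zpow γ h
    exact ⟨g, k, Or.inl (by rw [← hg, mul_inv_cancel_right])⟩
  · have h' : ((-γ : SL(2, ℤ)) : Matrix (Fin 2) (Fin 2) ℤ).trace = 2 := by
      rw [Matrix.SpecialLinearGroup.coe_neg, Matrix.trace_neg, h]; norm_num
    obtain ⟨g, k, hg⟩ := exists_mul_eq_mul_T_zpow (-γ) h'
    refine ⟨g, k, Or.inr ?_⟩
    rw [← hg, mul_inv_cancel_right, neg_neg]

end Fermat.Agent.S21.H585
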