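import Fermat.Agent.S21.H585.Cocycle
import Fermat.Agent.S21.H585.OrbitSum
import Fermat.Agent.S21.H585.Parabolic
import Fermat.Prelude.Def_ModularCurve_PeriodMap

/-!
# Lower bound for the dimension of the space of parabolic homomorphisms

For a finite index subgroup `Γ ≤ SL(2, ℤ)` containing `-1`, `X = SL(2, ℤ) ⧸ Γ` and any field `K`:
`#X + 2 ≤ dim Hom_par(Γ, K) + #(⟨S⟩\X) + #(⟨ST⟩\X) + #(⟨T⟩\X)`.
-/

set_option autoImplicit false

namespace Fermat.Agent.S21.H585

open Matrix ModularGroup ModularCurve.Period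
open scoped MatrixGroups

section Quot

variable (Γ : Subgroup SL(2, ℤ))

/-- The base point of `SL(2, ℤ) ⧸ Γ`. -/
def basePt : SL(2, ℤ) ⧸ Γ := ((1 : SL(2, ℤ)) : SL(2, ℤ) ⧸ Γ)

lemma smul_basePt_eq (g : SL(2, ℤ)) : g • basePt Γ = (g : SL(2, ℤ) ⧸ Γ) := by
  rw [basePt, MulAction.Quotient.smul_mk, smul_eq_mul, mul_one]

lemma smul_basePt_of_mem {γ : SL(2, ℤ)} (hγ : γ ∈ Γ) : γ • basePt Γ = basePt Γ := by
  rw [smul_basePt_eq, basePt, QuotientGroup.eq, mul_one]
  exact inv_mem hγ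

lemma out_smul_basePt (x : SL(2, ℤ) ⧸ Γ) : (Quotient.out x : SL(2, ℤ)) • basePt Γ = x := by
  rw [smul_basePt_eq, QuotientGroup.out_eq']

variable {Γ}

lemma neg_one_smul_quot (hneg : (-1 : SL(2, ℤ)) ∈ Γ) (x : SL(2, ℤ) ⧸ Γ) :
    (-1 : SL(2, ℤ)) • x = x := by
  induction x using QuotientGroup.induction_on with
  | H h =>
    rw [MulAction.Quotient.smul_mk, smul_eq_mul, QuotientGroup.eq]
    have : ((-1 : SL(2, ℤ)) * h)⁻¹ * h = -1 := by
      rw [_root_.mul_inv_rev, mul_assoc]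
      have h1 : (-1 : SL(2, ℤ))⁻¹ * h = h * (-1) := by
        have h2 : (-1 : SL(2, ℤ))⁻¹ = -1 := by
          rw [inv_eq_iff_eq_inv, eq_inv_iff_mul_eq_one]; simp
        rw [h2]; simp
      rw [h1, ← mul_assoc, inv_mul_cancel, one_mul]
    rw [this]; exact hneg

variable (Γ)

lemma sec_mem (g : SL(2, ℤ)) (x : SL(2, ℤ) ⧸ Γ) :
    (Quotient.out (g • x) : SL(2, ℤ))⁻¹ * g * Quotient.out x ∈ Γ := by
  rw [mul_assoc, ← QuotientGroup.eq, QuotientGroup.out_eq']
  conv_lhs => rw [← QuotientGroup.out_eq' x]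
  rw [MulAction.Quotient.smul_mk, smul_eq_mul]

end Quot


section Hom

variable (Γ : Subgroup SL(2, ℤ)) {A : Type*} [AddCommGroup A]

/-- The homomorphism `Γ → A` attached to a cocycle. -/
def homOfCocycle (f : SL(2, ℤ) → (SL(2, ℤ) ⧸ Γ) → A) (hf : IsCocycle f) : Additive Γ →+ A where
  toFun γ := f ((Additive.toMul γ : Γ) : SL(2, ℤ)) (basePt Γ)
  map_zero' := hf.map_one _
  map_add' γ δ := by
    show f (((Additive.toMul γ * Additive.toMul δ : Γ)) : SL(2, ℤ)) _ = _
    rw [Subgroup.coe_mul, hf, smul_basePt_of_mem Γ (Additive.toMul δ).2, add_comm]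

@[simp] lemma homOfCocycle_apply (f : SL(2, ℤ) → (SL(2, ℤ) ⧸ Γ) → A) (hf : IsCocycle f) (γ : Γ) :
    homOfCocycle Γ f hf (Additive.ofMul γ) = f (γ : SL(2, ℤ)) (basePt Γ) := rfl

variable {Γ}

lemma IsCocycle.zpow_of_cobd {X : Type*} [MulAction SL(2, ℤ) X] {f : SL(2, ℤ) → X → A}
    (hf : IsCocycle f) (g : SL(2, ℤ)) (h : X → A) (hg : ∀ x, f g x = h (g • x) - h x) (k : ℤ)
    (x : X) : f (g ^ k) x = h (g ^ k • x) - h x := by
  induction k using Int.induction_on generalizing x with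
  | zero => simp [hf.map_one]
  | succ n ih =>
    rw [_root_.zpow_add_one, hf, hg, ih, mul_smul]
    abel
  | pred n ih =>
    rw [_root_.zpow_sub_one, hf, ih, hf.map_inv', hg, smul_inv_smul, mul_smul]
    abel

lemma IsCocycle.conj_apply {f : SL(2, ℤ) → (SL(2, ℤ) ⧸ Γ) → A} (hf : IsCocycle f)
    (g t : SL(2, ℤ)) (hfix : (g * t * g⁻¹) • basePt Γ = basePt Γ) :
    f (g * t * g⁻¹) (basePt Γ) = f t (g⁻¹ • basePt Γ) := by
  have h1 : t • g⁻¹ • basePt Γ = g⁻¹ • basePt Γ := by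
    calc t • g⁻¹ • basePt Γ = g⁻¹ • (g * t * g⁻¹) • basePt Γ := by
          simp only [mul_smul, inv_smul_smul]
      _ = g⁻¹ • basePt Γ := by rw [hfix]
  have h2 := hf.map_inv g (g⁻¹ • basePt Γ)
  rw [smul_inv_smul] at h2
  rw [mul_assoc, hf, hf, mul_smul, h1, h2]
  abel

end Hom


section Construct

variable (Γ : Subgroup SL(2, ℤ)) {A : Type*} [AddCommGroup A]

/-- The cocycle induced by a homomorphism `ψ : Γ → A` (w.r.t. the section `Quotient.out`). -/
noncomputable def indc (ψ : Additive Γ →+ A) (g : SL(2, ℤ)) (x : SL(2, ℤ) ⧸ Γ) : A :=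
  ψ (Additive.ofMul
    (⟨(Quotient.out (g • x) : SL(2, ℤ))⁻¹ * g * Quotient.out x, sec_mem Γ g x⟩ : Γ))

variable {Γ}

lemma IsCocycle.eq_indc_add {f : SL(2, ℤ) → (SL(2, ℤ) ⧸ Γ) → A} (hf : IsCocycle f)
    (g : SL(2, ℤ)) (x : SL(2, ℤ) ⧸ Γ) :
    f g x = indc Γ (homOfCocycle Γ f hf) g x
      + f (Quotient.out (g • x)) (basePt Γ) - f (Quotient.out x) (basePt Γ) := by
  rw [indc, homOfCocycle_apply]
  show f g x = f ((Quotient.out (g • x) : SL(2, ℤ))⁻¹ * g * Quotient.out x) (basePt Γ) + _ - _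
  rw [mul_assoc, hf, hf, out_smul_basePt, mul_smul, out_smul_basePt]
  have h2 := hf.map_inv (Quotient.out (g • x)) (basePt Γ)
  rw [out_smul_basePt] at h2
  rw [h2]
  abel

theorem exists_parabolicHom_of_osum (hneg : (-1 : SL(2, ℤ)) ∈ Γ) (K : Type*) [Field K]
    [Fintype (SL(2, ℤ) ⧸ Γ)] (a c : (SL(2, ℤ) ⧸ Γ) → K)
    (ha : osum K S a = 0) (hc : osum K (S * T) c = 0) (hT : osum K T (c - a) = 0) :
    ∃ (ψ : Additive Γ →+ K) (n : (SL(2, ℤ) ⧸ Γ) → K), IsParabolicHom Γ ψ ∧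
      (∀ x, a x = indc Γ ψ S x + (n (S • x) - n x)) ∧
      (∀ x, c x = indc Γ ψ (S * T) x + (n ((S * T) • x) - n x)) := by
  have hn := neg_one_smul_quot hneg
  -- pointwise relations
  obtain ⟨ea, hea⟩ := exists_cobd_of_osum_eq_zero K S ha
  obtain ⟨ec, hec⟩ := exists_cobd_of_osum_eq_zero K (S * T) hc
  have ha' : ∀ x, a x + a (S • x) = 0 := by
    intro x
    rw [hea, hea, smul_smul, S_mul_S_eq_neg_one, hn]
    ring
  have hc' : ∀ x, c x + c ((S * T) • x) + c ((S * T) • (S * T) • x) = 0 := by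
    intro x
    have h1 : (S * T) • (S * T) • (S * T) • x = x := by
      rw [smul_smul, smul_smul, ST_cube_eq_neg_one, hn]
    rw [hec, hec, hec, h1]
    ring
  obtain ⟨f, hf, hfS, hfU⟩ := exists_cocycle hn a c ha' hc'
  -- `f (-1) = 0`
  have hfneg : ∀ x, f (-1) x = 0 := by
    intro x
    rw [← S_mul_S_eq_neg_one, hf, hfS]
    exact ha' x
  -- `f T`
  have hfT : ∀ x, f T x = c x - a (T • x) := by
    intro x
    have h1 : T = S⁻¹ * (S * T) := by rw [inv_mul_cancel_left]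
    have h2 : S⁻¹ • (S * T) • x = T • x := by rw [smul_smul, inv_mul_cancel_left]
    conv_lhs => rw [h1]
    rw [hf, hf.map_inv', hfU, hfS, h2]
    ring
  have hosT : osum K T (f T) = 0 := by
    have h1 : f T = c - fun x => a (T • x) := by
      funext x; rw [hfT]; rfl
    rw [h1, map_sub, osum_comp_smul, ← map_sub]
    exact hT
  obtain ⟨eT, heT⟩ := exists_cobd_of_osum_eq_zero K T hosT
  have hzpow := hf.zpow_of_cobd T eT heT
  refine ⟨homOfCocycle Γ f hf, fun x => f (Quotient.out x) (basePt Γ), ?_, ?_, ?_⟩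
  · -- parabolic
    intro γ hγ
    rw [homOfCocycle_apply]
    have key : ∀ (g : SL(2, ℤ)) (k : ℤ), (g * T ^ k * g⁻¹) • basePt Γ = basePt Γ →
        f (g * T ^ k * g⁻¹) (basePt Γ) = 0 := by
      intro g k hfix
      rw [hf.conj_apply g (T ^ k) hfix, hzpow]
      have h1 : T ^ k • g⁻¹ • basePt Γ = g⁻¹ • basePt Γ := by
        calc T ^ k • g⁻¹ • basePt Γ = g⁻¹ • (g * T ^ k * g⁻¹) • basePt Γ := by
              simp only [mul_smul, inv_smul_smul]
          _ = g⁻¹ • basePt Γ := by rw [hfix]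
      rw [h1, sub_self]
    obtain ⟨g, k, h | h⟩ := exists_conj_T_zpow (γ : SL(2, ℤ)) hγ
    · rw [h]
      apply key
      rw [← h]
      exact smul_basePt_of_mem Γ γ.2
    · have h1 : (γ : SL(2, ℤ)) = (-1) * (g * T ^ k * g⁻¹) := by
        rw [h]; simp
      have h2 : (g * T ^ k * g⁻¹) • basePt Γ = basePt Γ := by
        have h3 : g * T ^ k * g⁻¹ = (-1) * (γ : SL(2, ℤ)) := by
          rw [h]; simp
        rw [h3, mul_smul, smul_basePt_of_mem Γ γ.2, hn]
      rw [h1, hf, hfneg, add_zero]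
      exact key g k h2
  · intro x
    have := hf.eq_indc_add S x
    rw [hfS] at this
    rw [this]; ring
  · intro x
    have := hf.eq_indc_add (S * T) x
    rw [hfU] at this
    rw [this]; ring

end Construct


section Finite

/-- `Hom(H, K)` is finite dimensional for a finitely generated group `H`. -/
lemma finite_addMonoidHom_of_fg (H : Type*) [Group H] [Group.FG H] (K : Type*) [Field K] :
    Module.Finite K (Additive H →+ K) := by
  obtain ⟨s, hs⟩ := Group.fg_def.mp (inferInstance : Group.FG H)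
  let L : (Additive H →+ K) →ₗ[K] (s → K) :=
    { toFun := fun φ x => φ (Additive.ofMul (x : H))
      map_add' := fun _ _ => rfl
      map_smul' := fun _ _ => rfl }
  have hL : Function.Injective L := by
    rw [← LinearMap.ker_eq_bot, LinearMap.ker_eq_bot']
    intro φ hφ
    have h0 : ∀ x ∈ s, φ (Additive.ofMul x) = 0 := fun x hx => congrFun hφ ⟨x, hx⟩
    have key : ∀ h : H, φ (Additive.ofMul h) = 0 := by
      intro h
      have hg : h ∈ Subgroup.closure (s : Set H) := by rw [hs]; trivial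
      induction hg using Subgroup.closure_induction with
      | mem x hx => exact h0 x hx
      | one => exact map_zero φ
      | mul x y _ _ hx hy =>
        rw [ofMul_mul, map_add, hx, hy, add_zero]
      | inv x _ hx =>
        rw [ofMul_inv, map_neg, hx, neg_zero]
    exact AddMonoidHom.ext fun g => key (Additive.toMul g)
  exact Module.Finite.of_injective L hL

instance groupFG_SL2Z : Group.FG SL(2, ℤ) :=
  Group.fg_iff.mpr ⟨{S, T}, _root_.SpecialLinearGroup.SL2Z_generators, Set.toFinite _⟩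

lemma finite_parabolicHoms (Γ : Subgroup SL(2, ℤ)) [Γ.FiniteIndex] (K : Type*) [Field K] :
    Module.Finite K (parabolicHoms K Γ K) := by
  have : Group.FG Γ := Subgroup.fg_of_index_ne_zero Γ
  have := finite_addMonoidHom_of_fg Γ K
  infer_instance

end Finite


section Count

variable (K : Type*) [Field K] (X : Type*) [MulAction SL(2, ℤ) X] [Fintype X]

/-- The sum functional. -/
def sumL (ι : Type*) [Fintype ι] : (ι → K) →ₗ[K] K where
  toFun z := ∑ i, z i
  map_add' z z' := by simp [Finset.sum_add_distrib]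
  map_smul' t z := by simp [Finset.mul_sum]

@[simp] lemma sumL_apply (ι : Type*) [Fintype ι] (z : ι → K) : sumL K ι z = ∑ i, z i := rfl

/-- The constraint map `(a, c) ↦ (orbit sums of a, of c, of c - a)`. -/
noncomputable def lamL : ((X → K) × (X → K)) →ₗ[K]
    ((Orb S X → K) × (Orb (S * T) X → K) × (Orb T X → K)) :=
  ((osum K S).comp (LinearMap.fst K _ _)).prod
    (((osum K (S * T)).comp (LinearMap.snd K _ _)).prod
      ((osum K T).comp (LinearMap.snd K _ _ - LinearMap.fst K _ _)))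

lemma lamL_apply (a c : X → K) :
    lamL K X (a, c) = (osum K S a, osum K (S * T) c, osum K T (c - a)) := rfl

lemma mem_ker_lamL (a c : X → K) :
    (a, c) ∈ LinearMap.ker (lamL K X) ↔
      osum K S a = 0 ∧ osum K (S * T) c = 0 ∧ osum K T (c - a) = 0 := by
  rw [LinearMap.mem_ker, lamL_apply, Prod.mk_eq_zero, Prod.mk_eq_zero]

variable [Fintype (Orb S X)] [Fintype (Orb (S * T) X)] [Fintype (Orb T X)]

/-- The linear relation between the constraints. -/
noncomputable def epsL :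
    ((Orb S X → K) × (Orb (S * T) X → K) × (Orb T X → K)) →ₗ[K] K :=
  (sumL K _).comp ((LinearMap.snd K _ _).comp (LinearMap.snd K _ _))
    - (sumL K _).comp ((LinearMap.fst K _ _).comp (LinearMap.snd K _ _))
    + (sumL K _).comp (LinearMap.fst K _ _)

omit [Fintype X] in
lemma epsL_apply (p : Orb S X → K) (q : Orb (S * T) X → K) (z : Orb T X → K) :
    epsL K X (p, q, z) = ∑ i, z i - ∑ i, q i + ∑ i, p i := rfl

lemma range_lamL_le_ker_epsL : LinearMap.range (lamL K X) ≤ LinearMap.ker (epsL K X) := by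
  rintro _ ⟨⟨a, c⟩, rfl⟩
  rw [LinearMap.mem_ker, lamL_apply, epsL_apply, sum_osum, sum_osum, sum_osum]
  simp only [Pi.sub_apply, Finset.sum_sub_distrib]
  ring

omit [Fintype X] in
lemma epsL_surjective [Nonempty X] : Function.Surjective (epsL K X) := by
  classical
  obtain ⟨x⟩ := (inferInstance : Nonempty X)
  intro t
  refine ⟨(0, 0, Pi.single (orbMk T x) t), ?_⟩
  rw [epsL_apply]
  simp

lemma finrank_ker_epsL [Nonempty X] :
    Module.finrank K (LinearMap.ker (epsL K X)) + 1 =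
      Nat.card (Orb S X) + Nat.card (Orb (S * T) X) + Nat.card (Orb T X) := by
  have h := LinearMap.finrank_range_add_finrank_ker (epsL K X)
  rw [LinearMap.range_eq_top.mpr (epsL_surjective K X), finrank_top, Module.finrank_self,
    Module.finrank_prod, Module.finrank_prod, finrank_orb_fun, finrank_orb_fun,
    finrank_orb_fun] at h
  omega

/-- The dimension of the solution space of the orbit sum constraints. -/
theorem finrank_ker_lamL_ge [Nonempty X] :
    2 * Fintype.card X + 1 ≤ Module.finrank K (LinearMap.ker (lamL K X))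
      + Nat.card (Orb S X) + Nat.card (Orb (S * T) X) + Nat.card (Orb T X) := by
  have h1 := LinearMap.finrank_range_add_finrank_ker (lamL K X)
  rw [Module.finrank_prod, Module.finrank_fintype_fun_eq_card] at h1
  have h2 := Submodule.finrank_mono (range_lamL_le_ker_epsL K X)
  have h3 := finrank_ker_epsL K X
  omega

end Count


section Main

variable (Γ : Subgroup SL(2, ℤ)) (K : Type*) [Field K]

/-- `indc` as a linear map in `ψ`. -/
noncomputable def indcL (g : SL(2, ℤ)) :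
    (Additive Γ →+ K) →ₗ[K] ((SL(2, ℤ) ⧸ Γ) → K) where
  toFun ψ x := indc Γ ψ g x
  map_add' _ _ := rfl
  map_smul' _ _ := rfl

/-- The comparison map `(ψ, m) ↦ (ψ^S + (m ∘ S - m), ψ^{ST} + (m ∘ ST - m))`. -/
noncomputable def thetaL :
    (parabolicHoms K Γ K × ((SL(2, ℤ) ⧸ Γ) → K)) →ₗ[K]
      (((SL(2, ℤ) ⧸ Γ) → K) × ((SL(2, ℤ) ⧸ Γ) → K)) :=
  (((indcL Γ K S).comp ((parabolicHoms K Γ K).subtype.comp (LinearMap.fst K _ _)))
      + (cobd K S).comp (LinearMap.snd K _ _)).prod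
    (((indcL Γ K (S * T)).comp ((parabolicHoms K Γ K).subtype.comp (LinearMap.fst K _ _)))
      + (cobd K (S * T)).comp (LinearMap.snd K _ _))

lemma thetaL_apply (ψ : parabolicHoms K Γ K) (m : (SL(2, ℤ) ⧸ Γ) → K) :
    thetaL Γ K (ψ, m) =
      ((fun x => indc Γ (ψ : Additive Γ →+ K) S x) + cobd K S m,
       (fun x => indc Γ (ψ : Additive Γ →+ K) (S * T) x) + cobd K (S * T) m) := rfl

variable {Γ}

lemma ker_lamL_le_range_thetaL [Fintype (SL(2, ℤ) ⧸ Γ)] (hneg : (-1 : SL(2, ℤ)) ∈ Γ) :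
    LinearMap.ker (lamL K (SL(2, ℤ) ⧸ Γ)) ≤ LinearMap.range (thetaL Γ K) := by
  rintro ⟨a, c⟩ hac
  rw [mem_ker_lamL] at hac
  obtain ⟨ψ, n, hψ, h1, h2⟩ := exists_parabolicHom_of_osum hneg K a c hac.1 hac.2.1 hac.2.2
  refine ⟨(⟨ψ, hψ⟩, n), ?_⟩
  rw [thetaL_apply]
  refine Prod.ext ?_ ?_
  · funext x
    exact (h1 x).symm
  · funext x
    exact (h2 x).symm

lemma one_le_finrank_ker_thetaL [Γ.FiniteIndex] :
    1 ≤ Module.finrank K (LinearMap.ker (thetaL Γ K)) := by
  haveI := finite_parabolicHoms Γ K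
  haveI : Finite (SL(2, ℤ) ⧸ Γ) := Subgroup.finite_quotient_of_finiteIndex
  rw [Nat.succ_le_iff]
  refine (Module.finrank_pos_iff_exists_ne_zero (R := K)).mpr
    ⟨(⟨(0, fun _ => 1), ?_⟩ : LinearMap.ker (thetaL Γ K)), ?_⟩
  · rw [LinearMap.mem_ker, thetaL_apply]
    refine Prod.ext ?_ ?_
    · funext x
      simp [indc]
    · funext x
      simp [indc]
  · intro h
    have h1 := congrArg (fun z : LinearMap.ker (thetaL Γ K) => z.1.2 (basePt Γ)) h
    simp at h1

/-- **Lower bound for the dimension of the space of parabolic homomorphisms.** -/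
theorem card_add_two_le_finrank_parabolicHoms [Γ.FiniteIndex] (hneg : (-1 : SL(2, ℤ)) ∈ Γ) :
    Nat.card (SL(2, ℤ) ⧸ Γ) + 2 ≤
      Module.finrank K (parabolicHoms K Γ K)
        + Nat.card (MulAction.orbitRel.Quotient (Subgroup.zpowers S) (SL(2, ℤ) ⧸ Γ))
        + Nat.card (MulAction.orbitRel.Quotient (Subgroup.zpowers (S * T)) (SL(2, ℤ) ⧸ Γ))
        + Nat.card (MulAction.orbitRel.Quotient (Subgroup.zpowers T) (SL(2, ℤ) ⧸ Γ)) := by
  classical
  haveI := finite_parabolicHoms Γ K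
  haveI : Finite (SL(2, ℤ) ⧸ Γ) := Subgroup.finite_quotient_of_finiteIndex
  letI : Fintype (SL(2, ℤ) ⧸ Γ) := Fintype.ofFinite _
  letI : Fintype (Orb S (SL(2, ℤ) ⧸ Γ)) := Fintype.ofFinite _
  letI : Fintype (Orb (S * T) (SL(2, ℤ) ⧸ Γ)) := Fintype.ofFinite _
  letI : Fintype (Orb T (SL(2, ℤ) ⧸ Γ)) := Fintype.ofFinite _
  haveI : Nonempty (SL(2, ℤ) ⧸ Γ) := ⟨basePt Γ⟩
  have h1 : 2 * Fintype.card (SL(2, ℤ) ⧸ Γ) + 1 ≤
      Module.finrank K (LinearMap.ker (lamL K (SL(2, ℤ) ⧸ Γ)))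
        + Nat.card (MulAction.orbitRel.Quotient (Subgroup.zpowers S) (SL(2, ℤ) ⧸ Γ))
        + Nat.card (MulAction.orbitRel.Quotient (Subgroup.zpowers (S * T)) (SL(2, ℤ) ⧸ Γ))
        + Nat.card (MulAction.orbitRel.Quotient (Subgroup.zpowers T) (SL(2, ℤ) ⧸ Γ)) :=
    finrank_ker_lamL_ge K (SL(2, ℤ) ⧸ Γ)
  have h2 := Submodule.finrank_mono (ker_lamL_le_range_thetaL K hneg)
  have h3 := LinearMap.finrank_range_add_finrank_ker (thetaL Γ K)
  rw [Module.finrank_prod, Module.finrank_fintype_fun_eq_card] at h3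
  have h4 := one_le_finrank_ker_thetaL (Γ := Γ) K
  rw [Nat.card_eq_fintype_card (α := SL(2, ℤ) ⧸ Γ)]
  omega

end Main

end Fermat.Agent.S21.H585
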