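import Mathlib

/-!
# A universal property of `SL(2, ℤ)` (presentation of `PSL(2, ℤ) ≅ C₂ * C₃`)

For every group `H` and `s u : H` with `s ^ 2 = 1`, `u ^ 3 = 1` there is a group homomorphism
`Φ : SL(2, ℤ) →* H` with `Φ S = s` and `Φ (S * T) = u`.

Proof: ping-pong (Mathlib `Monoid.CoprodI.lift_injective_of_ping_pong`) for the action of
`SL(2, ℤ)` on integral `2 × 2` matrices by `Q ↦ g Q gᵀ`.
-/

set_option autoImplicit false

namespace Fermat.Agent.S21.H585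

open Matrix ModularGroup
open scoped MatrixGroups Pointwise

lemma qf_conj_conj (A B Q : Matrix (Fin 2) (Fin 2) ℤ) :
    A * (B * Q * Bᵀ) * Aᵀ = (A * B) * Q * (A * B)ᵀ := by
  rw [transpose_mul]; simp only [Matrix.mul_assoc]

/-- The action of `SL(2,ℤ)` on integral `2×2` matrices `Q ↦ g Q gᵀ`, as a hom to permutations. -/
def qfRho : SL(2, ℤ) →* Equiv.Perm (Matrix (Fin 2) (Fin 2) ℤ) where
  toFun g :=
    { toFun := fun Q => (g : Matrix (Fin 2) (Fin 2) ℤ) * Q * (g : Matrix (Fin 2) (Fin 2) ℤ)ᵀ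
      invFun := fun Q => ((g⁻¹ : SL(2, ℤ)) : Matrix (Fin 2) (Fin 2) ℤ) * Q *
        ((g⁻¹ : SL(2, ℤ)) : Matrix (Fin 2) (Fin 2) ℤ)ᵀ
      left_inv := fun Q => by
        have h : ((g⁻¹ : SL(2, ℤ)) : Matrix (Fin 2) (Fin 2) ℤ) * (g : Matrix _ _ ℤ) = 1 := by
          rw [← Matrix.SpecialLinearGroup.coe_mul, inv_mul_cancel, Matrix.SpecialLinearGroup.coe_one]
        simp only [qf_conj_conj, h, Matrix.one_mul, Matrix.transpose_one, Matrix.mul_one]
      right_inv := fun Q => by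
        have h : (g : Matrix _ _ ℤ) * ((g⁻¹ : SL(2, ℤ)) : Matrix (Fin 2) (Fin 2) ℤ) = 1 := by
          rw [← Matrix.SpecialLinearGroup.coe_mul, mul_inv_cancel, Matrix.SpecialLinearGroup.coe_one]
        simp only [qf_conj_conj, h, Matrix.one_mul, Matrix.transpose_one, Matrix.mul_one] }
  map_one' := by
    ext Q : 2
    simp
  map_mul' g h := by
    ext Q : 2
    simp only [Equiv.coe_fn_mk, Equiv.Perm.coe_mul, Function.comp_apply,
      Matrix.SpecialLinearGroup.coe_mul, qf_conj_conj]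

lemma qfRho_apply (g : SL(2, ℤ)) (Q : Matrix (Fin 2) (Fin 2) ℤ) :
    qfRho g Q = (g : Matrix (Fin 2) (Fin 2) ℤ) * Q * (g : Matrix (Fin 2) (Fin 2) ℤ)ᵀ := rfl


lemma qfRho_S_apply (Q : Matrix (Fin 2) (Fin 2) ℤ) :
    qfRho S Q = !![Q 1 1, -Q 1 0; -Q 0 1, Q 0 0] := by
  rw [qfRho_apply, coe_S]
  ext i j
  fin_cases i <;> fin_cases j <;>
    simp [Matrix.mul_apply, Fin.sum_univ_two, Matrix.transpose_apply, Matrix.vecMul, dotProduct]

lemma coe_S_mul_T : ((S * T : SL(2, ℤ)) : Matrix (Fin 2) (Fin 2) ℤ) = !![0, -1; 1, 1] := by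
  rw [Matrix.SpecialLinearGroup.coe_mul, coe_S, coe_T]
  ext i j
  fin_cases i <;> fin_cases j <;> simp [Matrix.mul_apply, Fin.sum_univ_two]

lemma qfRho_ST_apply (Q : Matrix (Fin 2) (Fin 2) ℤ) :
    qfRho (S * T) Q =
      !![Q 1 1, -Q 1 0 - Q 1 1; -Q 0 1 - Q 1 1, Q 0 0 + Q 0 1 + Q 1 0 + Q 1 1] := by
  rw [qfRho_apply, coe_S_mul_T]
  ext i j
  fin_cases i <;> fin_cases j <;>
    simp [Matrix.mul_apply, Fin.sum_univ_two, Matrix.transpose_apply, Matrix.vecMul, dotProduct]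
      <;> ring

lemma qfRho_S_sq : qfRho S ^ 2 = 1 := by
  ext Q i j
  rw [pow_two, Equiv.Perm.mul_apply, qfRho_S_apply, qfRho_S_apply]
  fin_cases i <;> fin_cases j <;> simp

lemma qfRho_ST_cube : qfRho (S * T) ^ 3 = 1 := by
  ext Q i j
  rw [pow_succ, pow_two, Equiv.Perm.mul_apply, Equiv.Perm.mul_apply, qfRho_ST_apply,
    qfRho_ST_apply, qfRho_ST_apply]
  fin_cases i <;> fin_cases j <;> simp <;> ring


/-- The two generators `ρ(S)`, `ρ(ST)`. -/
def qfGen : Fin 2 → Equiv.Perm (Matrix (Fin 2) (Fin 2) ℤ) := ![qfRho S, qfRho (S * T)]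

/-- The two cyclic groups `⟨ρ(S)⟩ ≅ C₂`, `⟨ρ(ST)⟩ ≅ C₃`. -/
abbrev QfH (i : Fin 2) : Type := Subgroup.zpowers (qfGen i)

/-- The inclusions. -/
def qfF (i : Fin 2) : QfH i →* Equiv.Perm (Matrix (Fin 2) (Fin 2) ℤ) :=
  (Subgroup.zpowers (qfGen i)).subtype

/-- The ping-pong sets. -/
def qfX : Fin 2 → Set (Matrix (Fin 2) (Fin 2) ℤ) :=
  ![{Q | 0 < Q 0 0 ∧ 0 < Q 1 1 ∧ 0 < Q 0 1 ∧ Q 1 0 = Q 0 1},
    {Q | 0 < Q 0 0 ∧ 0 < Q 1 1 ∧ Q 0 1 < 0 ∧ Q 1 0 = Q 0 1}]

lemma qfX_nonempty (i : Fin 2) : (qfX i).Nonempty := by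
  fin_cases i
  · exact ⟨!![1, 1; 1, 1], by simp [qfX]⟩
  · exact ⟨!![1, -1; -1, 1], by simp [qfX]⟩

lemma qfX_disjoint : Pairwise (Function.onFun Disjoint qfX) := by
  intro i j hij
  rw [Function.onFun, Set.disjoint_left]
  fin_cases i <;> fin_cases j
  · exact absurd rfl hij
  · rintro Q ⟨-, -, h1, -⟩ ⟨-, -, h2, -⟩; exact absurd h1 (not_lt.mpr h2.le)
  · rintro Q ⟨-, -, h1, -⟩ ⟨-, -, h2, -⟩; exact absurd h1 (not_lt.mpr h2.le)
  · exact absurd rfl hij

lemma qf_eq_pow_of_mem_zpowers {G : Type*} [Group G] {g : G} {n : ℕ} (hn : 0 < n)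
    (hg : g ^ n = 1) {h : G} (hh : h ∈ Subgroup.zpowers g) : ∃ k : ℕ, k < n ∧ h = g ^ k := by
  obtain ⟨m, rfl⟩ := Subgroup.mem_zpowers_iff.mp hh
  refine ⟨(m % n).toNat, ?_, ?_⟩
  · have h1 : m % (n : ℤ) < n := Int.emod_lt_of_pos m (by exact_mod_cast hn)
    have h0 : 0 ≤ m % (n : ℤ) := Int.emod_nonneg m (by exact_mod_cast hn.ne')
    omega
  · have h0 : 0 ≤ m % (n : ℤ) := Int.emod_nonneg m (by exact_mod_cast hn.ne')
    rw [← zpow_natCast, Int.toNat_of_nonneg h0]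
    conv_lhs => rw [← Int.emod_add_mul_ediv m n]
    rw [_root_.zpow_add, _root_.zpow_mul, zpow_natCast, hg, _root_.one_zpow, mul_one]

lemma qf_pingpong_zero (h : QfH 0) (hh : h ≠ 1) : qfF 0 h • qfX 1 ⊆ qfX 0 := by
  obtain ⟨k, hk, hk'⟩ := qf_eq_pow_of_mem_zpowers (n := 2) (by norm_num) qfRho_S_sq h.2
  have hk1 : k = 1 := by
    interval_cases k
    · exact absurd (Subtype.ext (by simpa using hk')) hh
    · rfl
  subst hk1
  rintro _ ⟨Q, ⟨h0, h1, h2, h3⟩, rfl⟩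
  have : qfF 0 h = qfRho S := by
    show h.1 = _
    rw [hk', pow_one]
  show qfF 0 h • Q ∈ qfX 0
  rw [this, Equiv.Perm.smul_def, qfRho_S_apply]
  simp only [qfX, Matrix.cons_val_zero, Set.mem_ofPred_eq, Matrix.of_apply, Matrix.cons_val',
    Matrix.cons_val_fin_one, Matrix.cons_val_one]
  refine ⟨h1, h0, ?_, ?_⟩ <;> omega

lemma qf_pingpong_one (h : QfH 1) (hh : h ≠ 1) : qfF 1 h • qfX 0 ⊆ qfX 1 := by
  obtain ⟨k, hk, hk'⟩ := qf_eq_pow_of_mem_zpowers (n := 3) (by norm_num) qfRho_ST_cube h.2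
  rintro _ ⟨Q, ⟨h0, h1, h2, h3⟩, rfl⟩
  show qfF 1 h • Q ∈ qfX 1
  have hf : qfF 1 h = h.1 := rfl
  interval_cases k
  · exact absurd (Subtype.ext (by simpa using hk')) hh
  · have : h.1 = qfRho (S * T) := by rw [hk', pow_one]
    rw [hf, this, Equiv.Perm.smul_def, qfRho_ST_apply]
    simp only [qfX, Matrix.cons_val_one, Matrix.cons_val_zero, Set.mem_ofPred_eq,
      Matrix.of_apply, Matrix.cons_val', Matrix.cons_val_fin_one]
    refine ⟨h1, ?_, ?_, ?_⟩ <;> omega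
  · have : h.1 = qfRho (S * T) * qfRho (S * T) := by rw [hk', pow_two]
    rw [hf, this, Equiv.Perm.smul_def, Equiv.Perm.mul_apply, qfRho_ST_apply, qfRho_ST_apply]
    simp only [qfX, Matrix.cons_val_one, Matrix.cons_val_zero, Set.mem_ofPred_eq,
      Matrix.of_apply, Matrix.cons_val', Matrix.cons_val_fin_one]
    refine ⟨?_, ?_, ?_, ?_⟩ <;> omega

lemma qf_pingpong : Pairwise fun i j => ∀ h : QfH i, h ≠ 1 → qfF i h • qfX j ⊆ qfX i := by
  intro i j hij
  fin_cases i <;> fin_cases j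
  · exact absurd rfl hij
  · exact qf_pingpong_zero
  · exact qf_pingpong_one
  · exact absurd rfl hij


lemma qfRho_S_ne_one : qfRho S ≠ 1 := by
  intro h
  have h1 := DFunLike.congr_fun h !![1, 1; 1, 1]
  rw [qfRho_S_apply] at h1
  have := congrFun (congrFun h1 0) 1
  simp at this

lemma qfRho_ST_ne_one : qfRho (S * T) ≠ 1 := by
  intro h
  have h1 := DFunLike.congr_fun h !![1, 0; 0, 0]
  rw [qfRho_ST_apply] at h1
  have := congrFun (congrFun h1 0) 0
  simp at this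

lemma orderOf_qfRho_S : orderOf (qfRho S) = 2 :=
  haveI : Fact (Nat.Prime 2) := ⟨Nat.prime_two⟩
  orderOf_eq_prime qfRho_S_sq qfRho_S_ne_one

lemma orderOf_qfRho_ST : orderOf (qfRho (S * T)) = 3 :=
  haveI : Fact (Nat.Prime 3) := ⟨Nat.prime_three⟩
  orderOf_eq_prime qfRho_ST_cube qfRho_ST_ne_one

lemma orderOf_qfGen (i : Fin 2) : orderOf (qfGen i) = (i : ℕ) + 2 := by
  fin_cases i
  · exact orderOf_qfRho_S
  · exact orderOf_qfRho_ST

open Cardinal in
lemma three_le_card_QfH_one : (3 : Cardinal) ≤ #(QfH 1) := by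
  have h3 : orderOf (qfGen 1) = 3 := orderOf_qfGen 1
  have : Finite (QfH 1) := by
    apply Nat.finite_of_card_ne_zero
    rw [Nat.card_zpowers, h3]; norm_num
  rw [← Nat.cast_card, Nat.card_zpowers, h3]
  norm_num

open Monoid in
theorem qf_lift_injective : Function.Injective (CoprodI.lift qfF) :=
  CoprodI.lift_injective_of_ping_pong qfF (Or.inr ⟨1, three_le_card_QfH_one⟩) qfX qfX_nonempty
    qfX_disjoint qf_pingpong

/-- the generator of `QfH i` -/
def qfGenH (i : Fin 2) : QfH i := ⟨qfGen i, Subgroup.mem_zpowers _⟩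

lemma qfGenH_generates (i : Fin 2) (x : QfH i) : x ∈ Subgroup.zpowers (qfGenH i) := by
  obtain ⟨k, hk⟩ := Subgroup.mem_zpowers_iff.mp x.2
  exact Subgroup.mem_zpowers_iff.mpr ⟨k, Subtype.ext (by simpa [qfGenH] using hk)⟩

lemma orderOf_qfGenH (i : Fin 2) : orderOf (qfGenH i) = (i : ℕ) + 2 := by
  rw [← orderOf_qfGen i, ← Subgroup.orderOf_coe]; rfl

open Monoid in
lemma qfRho_mem_range (g : SL(2, ℤ)) : qfRho g ∈ (CoprodI.lift qfF).range := by
  have hS : qfRho S ∈ (CoprodI.lift qfF).range :=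
    ⟨CoprodI.of (qfGenH 0), by rw [CoprodI.lift_of]; rfl⟩
  have hST : qfRho (S * T) ∈ (CoprodI.lift qfF).range :=
    ⟨CoprodI.of (qfGenH 1), by rw [CoprodI.lift_of]; rfl⟩
  have hT : qfRho T ∈ (CoprodI.lift qfF).range := by
    have : qfRho T = (qfRho S)⁻¹ * qfRho (S * T) := by
      rw [map_mul, inv_mul_cancel_left]
    rw [this]
    exact mul_mem (inv_mem hS) hST
  have hg : g ∈ Subgroup.closure ({S, T} : Set SL(2, ℤ)) := by
    rw [_root_.SpecialLinearGroup.SL2Z_generators]; trivial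
  have hle : Subgroup.closure ({S, T} : Set SL(2, ℤ)) ≤ (CoprodI.lift qfF).range.comap qfRho := by
    rw [Subgroup.closure_le]
    rintro x (rfl | rfl)
    · exact hS
    · exact hT
  exact hle hg

open Monoid in
/-- The homomorphism `SL(2,ℤ) → C₂ * C₃`. -/
noncomputable def qfKappa : SL(2, ℤ) →* CoprodI QfH :=
  (MonoidHom.ofInjective qf_lift_injective).symm.toMonoidHom.comp
    (qfRho.codRestrict (CoprodI.lift qfF).range qfRho_mem_range)

open Monoid in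
lemma lift_qfKappa (g : SL(2, ℤ)) : CoprodI.lift qfF (qfKappa g) = qfRho g := by
  simp only [qfKappa, MonoidHom.coe_comp, MulEquiv.coe_toMonoidHom, Function.comp_apply]
  rw [MonoidHom.apply_ofInjective_symm]
  rfl

open Monoid in
lemma qfKappa_S : qfKappa S = CoprodI.of (qfGenH 0) := by
  apply qf_lift_injective
  rw [lift_qfKappa, CoprodI.lift_of]; rfl

open Monoid in
lemma qfKappa_ST : qfKappa (S * T) = CoprodI.of (qfGenH 1) := by
  apply qf_lift_injective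
  rw [lift_qfKappa, CoprodI.lift_of]; rfl

open Monoid in
/-- **Universal property of `SL(2, ℤ)`** (equivalently: `PSL(2, ℤ) ≅ C₂ * C₃`):
any `s`, `u` in a group with `s ^ 2 = 1`, `u ^ 3 = 1` are the images of `S`, `S * T`
under a group homomorphism. -/
theorem exists_hom_of_sq_cube {H : Type*} [Group H] (s u : H) (hs : s ^ 2 = 1) (hu : u ^ 3 = 1) :
    ∃ Φ : SL(2, ℤ) →* H, Φ S = s ∧ Φ (S * T) = u := by
  let t : Fin 2 → H := ![s, u]
  have ht : ∀ i : Fin 2, orderOf (t i) ∣ orderOf (qfGenH i) := by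
    intro i
    rw [orderOf_qfGenH]
    fin_cases i
    · exact orderOf_dvd_of_pow_eq_one hs
    · exact orderOf_dvd_of_pow_eq_one hu
  let hI : ∀ i : Fin 2, QfH i →* H := fun i =>
    monoidHomOfForallMemZpowers (qfGenH_generates i) (ht i)
  refine ⟨(CoprodI.lift hI).comp qfKappa, ?_, ?_⟩
  · rw [MonoidHom.comp_apply, qfKappa_S, CoprodI.lift_of]
    exact monoidHomOfForallMemZpowers_apply_gen (qfGenH_generates 0) (ht 0)
  · rw [MonoidHom.comp_apply, qfKappa_ST, CoprodI.lift_of]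
    exact monoidHomOfForallMemZpowers_apply_gen (qfGenH_generates 1) (ht 1)

end Fermat.Agent.S21.H585
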