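import Fermat.Agent.S21.H585.Presentation

/-!
# Cocycles on `SL(2, ℤ)` with values in functions on an `SL(2, ℤ)`-set

If `-1` acts trivially on `X`, then any `a c : X → A` with `a + a ∘ S = 0` and
`c + c ∘ ST + c ∘ (ST)² = 0` extend to a cocycle `f : SL(2, ℤ) → X → A`
(`f (g * h) x = f h x + f g (h • x)`) with `f S = a`, `f (S * T) = c`.
-/

set_option autoImplicit false

namespace Fermat.Agent.S21.H585

open Matrix ModularGroup
open scoped MatrixGroups

lemma S_mul_S_eq_neg_one : (S * S : SL(2, ℤ)) = -1 := by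
  apply Subtype.ext
  rw [Matrix.SpecialLinearGroup.coe_mul, Matrix.SpecialLinearGroup.coe_neg,
    Matrix.SpecialLinearGroup.coe_one, S_mul_S_eq]

lemma ST_cube_eq_neg_one : ((S * T) * (S * T) * (S * T) : SL(2, ℤ)) = -1 := by
  apply Subtype.ext
  rw [Matrix.SpecialLinearGroup.coe_mul, Matrix.SpecialLinearGroup.coe_mul, coe_S_mul_T,
    Matrix.SpecialLinearGroup.coe_neg, Matrix.SpecialLinearGroup.coe_one]
  ext i j
  fin_cases i <;> fin_cases j <;> simp [Matrix.mul_apply, Fin.sum_univ_two]

section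

variable {G : Type*} [Group G] {X : Type*} [MulAction G X] {A : Type*} [AddCommGroup A]

/-- The permutation `(x, t) ↦ (g • x, t + m x)` of `X × A`. -/
def affPerm (g : G) (m : X → A) : Equiv.Perm (X × A) where
  toFun z := (g • z.1, z.2 + m z.1)
  invFun z := (g⁻¹ • z.1, z.2 - m (g⁻¹ • z.1))
  left_inv z := by
    rcases z with ⟨x, t⟩
    simp
  right_inv z := by
    rcases z with ⟨x, t⟩
    simp

@[simp] lemma affPerm_apply (g : G) (m : X → A) (x : X) (t : A) :
    affPerm g m (x, t) = (g • x, t + m x) := rfl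

/-- Abstract cocycles. -/
def IsCocycle (f : G → X → A) : Prop := ∀ g h x, f (g * h) x = f h x + f g (h • x)

lemma IsCocycle.map_one {f : G → X → A} (hf : IsCocycle f) (x : X) : f 1 x = 0 := by
  have := hf 1 1 x
  rw [one_mul, one_smul] at this
  exact left_eq_add.mp this

lemma IsCocycle.map_inv {f : G → X → A} (hf : IsCocycle f) (g : G) (x : X) :
    f g⁻¹ (g • x) = - f g x := by
  have := hf g⁻¹ g x
  rw [inv_mul_cancel, hf.map_one] at this
  exact eq_neg_of_add_eq_zero_right this.symm

lemma IsCocycle.map_inv' {f : G → X → A} (hf : IsCocycle f) (g : G) (x : X) :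
    f g⁻¹ x = - f g (g⁻¹ • x) := by
  have := hf.map_inv g (g⁻¹ • x)
  rwa [smul_inv_smul] at this

end

/-- **Existence of cocycles on `SL(2, ℤ)`** with prescribed values on `S` and `S * T`. -/
theorem exists_cocycle {X : Type*} [MulAction SL(2, ℤ) X] {A : Type*} [AddCommGroup A]
    (hneg : ∀ x : X, (-1 : SL(2, ℤ)) • x = x) (a c : X → A)
    (ha : ∀ x, a x + a (S • x) = 0)
    (hc : ∀ x, c x + c ((S * T) • x) + c ((S * T) • (S * T) • x) = 0) :
    ∃ f : SL(2, ℤ) → X → A, IsCocycle f ∧ f S = a ∧ f (S * T) = c := by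
  have hs : (affPerm S a : Equiv.Perm (X × A)) ^ 2 = 1 := by
    ext ⟨x, t⟩ : 1
    rw [pow_two, Equiv.Perm.mul_apply, affPerm_apply, affPerm_apply, Equiv.Perm.one_apply,
      ← mul_smul, S_mul_S_eq_neg_one, hneg, add_assoc, ha, add_zero]
  have hu : (affPerm (S * T) c : Equiv.Perm (X × A)) ^ 3 = 1 := by
    ext ⟨x, t⟩ : 1
    rw [pow_succ, pow_two, Equiv.Perm.mul_apply, Equiv.Perm.mul_apply, affPerm_apply,
      affPerm_apply, affPerm_apply, Equiv.Perm.one_apply]
    have h1 : (S * T) • (S * T) • (S * T) • x = x := by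
      rw [smul_smul, smul_smul, ST_cube_eq_neg_one, hneg]
    rw [h1, add_assoc, add_assoc, ← add_assoc (c x), hc, add_zero]
  obtain ⟨Φ, hΦS, hΦU⟩ := exists_hom_of_sq_cube _ _ hs hu
  -- every `Φ g` is affine over `g`
  have hP : ∀ g : SL(2, ℤ), ∃ m : X → A, ∀ x t, Φ g (x, t) = (g • x, t + m x) := by
    intro g
    have hg : g ∈ Subgroup.closure ({S, S * T} : Set SL(2, ℤ)) := by
      have hle : Subgroup.closure ({S, T} : Set SL(2, ℤ)) ≤
          Subgroup.closure ({S, S * T} : Set SL(2, ℤ)) := by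
        rw [Subgroup.closure_le]
        rintro x (rfl | rfl)
        · exact Subgroup.subset_closure (by simp)
        · have h1 : S ∈ Subgroup.closure ({S, S * T} : Set SL(2, ℤ)) :=
            Subgroup.subset_closure (by simp)
          have h2 : S * T ∈ Subgroup.closure ({S, S * T} : Set SL(2, ℤ)) :=
            Subgroup.subset_closure (by simp)
          have h3 := mul_mem (inv_mem h1) h2
          rwa [inv_mul_cancel_left] at h3
      apply hle
      rw [_root_.SpecialLinearGroup.SL2Z_generators]; trivial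
    induction hg using Subgroup.closure_induction with
    | mem x hx =>
      rcases hx with rfl | rfl
      · exact ⟨a, fun x t => by rw [hΦS, affPerm_apply]⟩
      · exact ⟨c, fun x t => by rw [hΦU, affPerm_apply]⟩
    | one => exact ⟨0, fun x t => by simp⟩
    | mul g h _ _ hg hh =>
      obtain ⟨m, hm⟩ := hg
      obtain ⟨n, hn⟩ := hh
      refine ⟨fun x => n x + m (h • x), fun x t => ?_⟩
      rw [map_mul, Equiv.Perm.mul_apply, hn, hm, mul_smul, add_assoc]
    | inv g _ hg =>
      obtain ⟨m, hm⟩ := hg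
      refine ⟨fun x => - m (g⁻¹ • x), fun x t => ?_⟩
      rw [map_inv, Equiv.Perm.inv_eq_iff_eq, hm, smul_inv_smul]
      simp
  choose m hm using hP
  refine ⟨m, ?_, ?_, ?_⟩
  · intro g h x
    have h1 := hm (g * h) x 0
    rw [map_mul, Equiv.Perm.mul_apply, hm h, hm g, zero_add, zero_add] at h1
    exact (congrArg Prod.snd h1).symm
  · funext x
    have h1 := hm S x 0
    rw [hΦS, affPerm_apply] at h1
    simpa using (congrArg Prod.snd h1).symm
  · funext x
    have h1 := hm (S * T) x 0
    rw [hΦU, affPerm_apply] at h1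
    simpa using (congrArg Prod.snd h1).symm

end Fermat.Agent.S21.H585
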